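import Mathlib.RingTheory.Regular.ProjectiveDimension
import Mathlib.RingTheory.Regular.Free
import Mathlib.RingTheory.Regular.Flat
import Mathlib.RingTheory.RegularLocalRing.Defs
import Mathlib.RingTheory.MvPowerSeries.Equiv
import Mathlib.RingTheory.PowerSeries.Inverse

set_option autoImplicit false

open CategoryTheory Abelian IsLocalRing Module RingTheory.Sequence
open scoped Pointwise

namespace Fermat.Agent.CommAlg

section

variable {S : Type} [CommRing S] [IsLocalRing S] [IsNoetherianRing S]

omit [IsLocalRing S] [IsNoetherianRing S] in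
/-- `(S/x)^k` has projective dimension at most one if `x` is a regular element. -/
theorem hasPD_pi_quotient {x : S} (hreg : IsSMulRegular S x) (k : ℕ) :
    HasProjectiveDimensionLE (ModuleCat.of S (Fin k → (S ⧸ Ideal.span {x}))) 1 := by
  have hregk : IsSMulRegular (ModuleCat.of S (Fin k → S)) x := by
    intro f g hfg
    funext i
    exact hreg (congrFun hfg i)
  have hses := hregk.smulShortComplex_shortExact
  have h3 := hses.hasProjectiveDimensionLT_X₃ 1
    (show HasProjectiveDimensionLT (ModuleCat.of S (Fin k → S)) 1 from inferInstance)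
    (show HasProjectiveDimensionLT (ModuleCat.of S (Fin k → S)) 2 from inferInstance)
  let f : (Fin k → S) →ₗ[S] (Fin k → (S ⧸ Ideal.span {x})) :=
    LinearMap.pi fun i => (Submodule.mkQ (Ideal.span {x})).comp (LinearMap.proj i)
  have hf : Function.Surjective f := by
    intro g
    choose g' hg' using fun i => Submodule.mkQ_surjective (Ideal.span {x}) (g i)
    exact ⟨g', funext hg'⟩
  have hker : (x • ⊤ : Submodule S (Fin k → S)) = LinearMap.ker f := by
    apply le_antisymm
    · intro y hy
      obtain ⟨z, -, rfl⟩ := (Submodule.mem_smul_pointwise_iff_exists _ _ _).mp hy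
      rw [LinearMap.mem_ker]
      funext i
      simp only [f, LinearMap.pi_apply, LinearMap.comp_apply, LinearMap.proj_apply, Pi.zero_apply,
        Submodule.mkQ_apply, Pi.smul_apply]
      rw [Submodule.Quotient.mk_eq_zero]
      exact Ideal.mem_span_singleton'.mpr ⟨z i, by rw [smul_eq_mul, mul_comm]⟩
    · intro y hy
      rw [LinearMap.mem_ker] at hy
      have h1 : ∀ i, ∃ a, a * x = y i := by
        intro i
        have := congrFun hy i
        simp only [f, LinearMap.pi_apply, LinearMap.comp_apply, LinearMap.proj_apply,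
          Pi.zero_apply, Submodule.mkQ_apply] at this
        rw [Submodule.Quotient.mk_eq_zero] at this
        exact Ideal.mem_span_singleton'.mp this
      choose z hz using h1
      rw [Submodule.mem_smul_pointwise_iff_exists]
      exact ⟨z, trivial, funext fun i => by simp [← hz i, mul_comm]⟩
  let e : (QuotSMulTop x (Fin k → S)) ≃ₗ[S] (Fin k → (S ⧸ Ideal.span {x})) :=
    (Submodule.quotEquivOfEq _ _ hker).trans (f.quotKerEquivOfSurjective hf)
  have : HasProjectiveDimensionLE (ModuleCat.of S (QuotSMulTop x (Fin k → S))) 1 := h3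
  exact ModuleCat.hasProjectiveDimensionLE_of_linearEquiv
    (M := ModuleCat.of S (QuotSMulTop x (Fin k → S)))
    (N := ModuleCat.of S (Fin k → (S ⧸ Ideal.span {x}))) e 1

/-- If `L` has projective dimension `≤ n` over `S/x`, then it has projective dimension `≤ n+1`
over `S` (for `x` a regular element in the maximal ideal). -/
theorem hasPD_of_quotient {x : S} (hx : x ∈ maximalIdeal S) (hreg : IsSMulRegular S x) (n : ℕ) :
    ∀ (L : Type) [AddCommGroup L] [Module S L] [Module (S ⧸ Ideal.span {x}) L]
      [IsScalarTower S (S ⧸ Ideal.span {x}) L] [Module.Finite (S ⧸ Ideal.span {x}) L],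
      HasProjectiveDimensionLE (ModuleCat.of (S ⧸ Ideal.span {x}) L) n →
      HasProjectiveDimensionLE (ModuleCat.of S L) (n + 1) := by
  have hne : (Ideal.span {x} : Ideal S) ≠ ⊤ := by
    rw [Ne, Ideal.span_singleton_eq_top]
    exact (mem_maximalIdeal x).mp hx
  have : Nontrivial (S ⧸ Ideal.span {x}) := Ideal.Quotient.nontrivial_iff.mpr hne
  have : IsLocalRing (S ⧸ Ideal.span {x}) :=
    IsLocalRing.of_surjective' (Ideal.Quotient.mk (Ideal.span {x})) Ideal.Quotient.mk_surjective
  induction n with
  | zero =>
    intro L _ _ _ _ _ hL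
    have hproj : Projective (ModuleCat.of (S ⧸ Ideal.span {x}) L) :=
      (projective_iff_hasProjectiveDimensionLE_zero (X := ModuleCat.of (S ⧸ Ideal.span {x}) L)).mpr hL
    have hproj' : Module.Projective (S ⧸ Ideal.span {x}) L :=
      (IsProjective.iff_projective (R := S ⧸ Ideal.span {x}) (P := L)).mpr hproj
    have hfree : Module.Free (S ⧸ Ideal.span {x}) L := Module.free_of_flat_of_isLocalRing
    let b := Module.finBasis (S ⧸ Ideal.span {x}) L
    let e : (Fin (finrank (S ⧸ Ideal.span {x}) L) → (S ⧸ Ideal.span {x})) ≃ₗ[S] L :=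
      b.equivFun.symm.restrictScalars S
    have := hasPD_pi_quotient hreg (finrank (S ⧸ Ideal.span {x}) L)
    exact ModuleCat.hasProjectiveDimensionLE_of_linearEquiv
      (M := ModuleCat.of S (Fin (finrank (S ⧸ Ideal.span {x}) L) → (S ⧸ Ideal.span {x})))
      (N := ModuleCat.of S L) e 1
  | succ n ih =>
    intro L _ _ _ _ _ hL
    obtain ⟨k, f, hf⟩ := Module.Finite.exists_fin' (S ⧸ Ideal.span {x}) L
    have h1 := LinearMap.shortExact_shortComplexKer hf
    have hK : HasProjectiveDimensionLE (ModuleCat.of (S ⧸ Ideal.span {x}) (LinearMap.ker f)) n :=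
      (h1.hasProjectiveDimensionLT_X₃_iff n inferInstance).mp hL
    let f' : (Fin k → (S ⧸ Ideal.span {x})) →ₗ[S] L := f.restrictScalars S
    have hf' : Function.Surjective f' := hf
    have h2 := LinearMap.shortExact_shortComplexKer hf'
    have hK' : HasProjectiveDimensionLE (ModuleCat.of S (LinearMap.ker f)) (n + 1) :=
      ih (LinearMap.ker f) hK
    let e : (LinearMap.ker f) ≃ₗ[S] LinearMap.ker f' :=
      { toFun := fun y => ⟨y.1, y.2⟩
        invFun := fun y => ⟨y.1, y.2⟩
        map_add' := fun _ _ => rfl
        map_smul' := fun _ _ => rfl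
        left_inv := fun _ => rfl
        right_inv := fun _ => rfl }
    have hK'' : HasProjectiveDimensionLE (ModuleCat.of S (LinearMap.ker f')) (n + 1) :=
      ModuleCat.hasProjectiveDimensionLE_of_linearEquiv
        (M := ModuleCat.of S (LinearMap.ker f)) (N := ModuleCat.of S (LinearMap.ker f')) e (n + 1)
    have := hasPD_pi_quotient hreg k
    exact h2.hasProjectiveDimensionLT_X₃ (n + 2) hK''
      (hasProjectiveDimensionLT_of_ge (ModuleCat.of S (Fin k → (S ⧸ Ideal.span {x}))) 2 (n + 3)
        (by omega))

end

/-- The maximal ideal of the local Noetherian ring `S` is generated by the regular sequence `rs`: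
then every finite module has projective dimension at most the length of `rs`. -/
theorem hasPD_of_isWeaklyRegular (n : ℕ) :
    ∀ (S : Type) [CommRing S] [IsLocalRing S] [IsNoetherianRing S] (rs : List S),
      rs.length = n → IsWeaklyRegular S rs → Ideal.ofList rs = maximalIdeal S →
      ∀ (N : Type) [AddCommGroup N] [Module S N] [Module.Finite S N],
        HasProjectiveDimensionLE (ModuleCat.of S N) n := by
  induction n with
  | zero =>
    intro S _ _ _ rs hlen _ hmax N _ _ _
    rw [List.length_eq_zero_iff] at hlen
    subst hlen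
    rw [Ideal.ofList_nil] at hmax
    have hfield : IsField S := by
      rw [IsLocalRing.isField_iff_maximalIdeal_eq]
      exact hmax.symm
    let := hfield.toField
    have : Module.Free S N := Module.Free.of_divisionRing S N
    rw [← projective_iff_hasProjectiveDimensionLE_zero]
    infer_instance
  | succ n ih =>
    intro S _ _ _ rs hlen hreg hmax N _ _ _
    match rs, hlen with
    | x :: rs', hlen =>
      have hx : x ∈ maximalIdeal S := by
        rw [← hmax, Ideal.ofList_cons]
        exact Ideal.mem_sup_left (Ideal.mem_span_singleton_self x)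
      rw [isWeaklyRegular_cons_iff] at hreg
      obtain ⟨hxreg, hrs'⟩ := hreg
      have hne : (Ideal.span {x} : Ideal S) ≠ ⊤ := by
        rw [Ne, Ideal.span_singleton_eq_top]
        exact (mem_maximalIdeal x).mp hx
      have : Nontrivial (S ⧸ Ideal.span {x}) := Ideal.Quotient.nontrivial_iff.mpr hne
      have : IsLocalRing (S ⧸ Ideal.span {x}) :=
        IsLocalRing.of_surjective' (Ideal.Quotient.mk (Ideal.span {x}))
          Ideal.Quotient.mk_surjective
      have hlen' : (rs'.map (algebraMap S (S ⧸ Ideal.span {x}))).length = n := by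
        simpa using hlen
      have heq : (x • ⊤ : Submodule S S) = Ideal.span {x} := by
        rw [← Submodule.ideal_span_singleton_smul]; simp
      have hrs'' : IsWeaklyRegular (S ⧸ Ideal.span {x})
          (rs'.map (algebraMap S (S ⧸ Ideal.span {x}))) := by
        rw [isWeaklyRegular_map_algebraMap_iff]
        exact ((Submodule.quotEquivOfEq _ _ heq).isWeaklyRegular_congr rs').mp hrs'
      have hmax' : Ideal.ofList (rs'.map (algebraMap S (S ⧸ Ideal.span {x}))) =
          maximalIdeal (S ⧸ Ideal.span {x}) := by
        have h1 : (maximalIdeal (S ⧸ Ideal.span {x})).comap (algebraMap S (S ⧸ Ideal.span {x})) =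
            maximalIdeal S :=
          IsLocalRing.eq_maximalIdeal
            (Ideal.comap_isMaximal_of_surjective _ Ideal.Quotient.mk_surjective)
        have h2 : (maximalIdeal S).map (algebraMap S (S ⧸ Ideal.span {x})) =
            maximalIdeal (S ⧸ Ideal.span {x}) := by
          rw [← h1]
          exact Ideal.map_comap_of_surjective _ Ideal.Quotient.mk_surjective _
        rw [← h2, ← hmax, Ideal.ofList_cons, Ideal.map_sup, Ideal.map_ofList, Ideal.map_span,
          Set.image_singleton]
        have h3 : (algebraMap S (S ⧸ Ideal.span {x})) x = 0 :=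
          Ideal.Quotient.eq_zero_iff_mem.mpr (Ideal.mem_span_singleton_self x)
        rw [h3]
        simp
      obtain ⟨k, f, hf⟩ := Module.Finite.exists_fin' S N
      have hses := LinearMap.shortExact_shortComplexKer hf
      have hKreg : IsSMulRegular (LinearMap.ker f) x := by
        intro a b hab
        apply Subtype.ext
        funext i
        exact hxreg (congrFun (congrArg Subtype.val hab) i)
      have : Module.Finite S (QuotSMulTop x (LinearMap.ker f)) := inferInstance
      have : Module.Finite (S ⧸ Ideal.span {x}) (QuotSMulTop x (LinearMap.ker f)) :=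
        Module.Finite.of_restrictScalars_finite S _ _
      have hq := ih (S ⧸ Ideal.span {x}) _ hlen' hrs'' hmax' (QuotSMulTop x (LinearMap.ker f))
      have hq' := hasPD_of_quotient hx hxreg n (QuotSMulTop x (LinearMap.ker f)) hq
      have hpd := ModuleCat.projectiveDimension_quotSMulTop_eq_succ_of_isSMulRegular
        (ModuleCat.of S (LinearMap.ker f)) x hKreg hx
      have hK : HasProjectiveDimensionLE (ModuleCat.of S (LinearMap.ker f)) n := by
        rw [← projectiveDimension_le_iff]
        have h4 := (projectiveDimension_le_iff _ _).mpr hq'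
        erw [hpd] at h4
        rw [Nat.cast_add] at h4
        exact (ENat.WithBot.add_le_add_natCast_right_iff (c := 1)).mp (by simpa using h4)
      exact hses.hasProjectiveDimensionLT_X₃ (n + 1) hK
        (hasProjectiveDimensionLT_of_ge (ModuleCat.of S (Fin k → S)) 1 (n + 2) (by omega))

/-- Over a Noetherian local ring whose maximal ideal is generated by a regular sequence `rs`, a
finite module admitting a regular sequence (in the maximal ideal) of the same length is free. -/
theorem free_of_regular_sequence {S : Type} [CommRing S] [IsLocalRing S] [IsNoetherianRing S]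
    (rs : List S) (hrs : IsWeaklyRegular S rs) (hmax : Ideal.ofList rs = maximalIdeal S)
    (N : Type) [AddCommGroup N] [Module S N] [Module.Finite S N] [Nontrivial N]
    (as : List S) (has : IsWeaklyRegular N as) (hmem : ∀ a ∈ as, a ∈ maximalIdeal S)
    (hlen : as.length = rs.length) : Module.Free S N := by
  have h1 := ModuleCat.projectiveDimension_quotient_eq_add_length_of_isWeaklyRegular
    (ModuleCat.of S N) as has hmem
  have h2 := hasPD_of_isWeaklyRegular rs.length S rs rfl hrs hmax
    (N ⧸ (Ideal.ofList as • ⊤ : Submodule S N))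
  have h3 := (projectiveDimension_le_iff _ _).mpr h2
  erw [h1] at h3
  rw [hlen] at h3
  have h4 : projectiveDimension (ModuleCat.of S N) ≤ (0 : ℕ) := by
    refine (ENat.WithBot.add_le_add_natCast_right_iff (c := rs.length)).mp ?_
    simpa using h3
  rw [projectiveDimension_le_iff] at h4
  have h5 : Projective (ModuleCat.of S N) :=
    (projective_iff_hasProjectiveDimensionLE_zero (X := ModuleCat.of S N)).mpr h4
  have h6 : Module.Projective S N := (IsProjective.iff_projective (R := S) (P := N)).mpr h5
  exact Module.free_of_flat_of_isLocalRing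

theorem transport_regular_generators {S S' : Type} [CommRing S] [CommRing S'] [IsLocalRing S]
    [IsLocalRing S'] (e : S ≃+* S') (rs : List S) (hrs : IsWeaklyRegular S rs)
    (hmax : Ideal.ofList rs = maximalIdeal S) :
    IsWeaklyRegular S' (rs.map e) ∧ Ideal.ofList (rs.map e) = maximalIdeal S' := by
  constructor
  · refine (AddEquiv.isWeaklyRegular_congr (e := e.toAddEquiv) ?_).mp hrs
    refine List.forall₂_map_right_iff.mpr <| List.forall₂_same.mpr fun r _ x => ?_
    simp
  · rw [← map_ringEquiv_maximalIdeal e, ← hmax]
    exact (Ideal.map_ofList (e : S →+* S') rs).symm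

theorem powerSeries_regular_generators {S : Type} [CommRing S] [IsLocalRing S] (rs : List S)
    (hrs : IsWeaklyRegular S rs) (hmax : Ideal.ofList rs = maximalIdeal S) :
    IsWeaklyRegular (PowerSeries S) (PowerSeries.X :: rs.map PowerSeries.C) ∧
      Ideal.ofList ((PowerSeries.X : PowerSeries S) :: rs.map PowerSeries.C) =
        maximalIdeal (PowerSeries S) := by
  constructor
  · rw [isWeaklyRegular_cons_iff]
    refine ⟨fun a b hab => PowerSeries.X_mul_cancel hab, ?_⟩
    have hker : ((PowerSeries.X : PowerSeries S) • ⊤ :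
        Submodule (PowerSeries S) (PowerSeries S)).toAddSubgroup =
        (PowerSeries.constantCoeff (R := S)).toAddMonoidHom.ker := by
      ext y
      rw [Submodule.mem_toAddSubgroup, Submodule.mem_smul_pointwise_iff_exists]
      change (∃ b ∈ ⊤, _) ↔ PowerSeries.constantCoeff y = 0
      rw [← PowerSeries.X_dvd_iff]
      constructor
      · rintro ⟨b, -, rfl⟩
        exact Dvd.intro b rfl
      · rintro ⟨b, rfl⟩
        exact ⟨b, trivial, rfl⟩
    let e : QuotSMulTop (PowerSeries.X : PowerSeries S) (PowerSeries S) ≃+ S :=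
      (QuotientAddGroup.quotientAddEquivOfEq hker).trans
        (QuotientAddGroup.quotientKerEquivOfSurjective _ PowerSeries.constantCoeff_surj)
    refine (AddEquiv.isWeaklyRegular_congr (e := e) ?_).mpr hrs
    refine List.forall₂_map_left_iff.mpr <| List.forall₂_same.mpr fun r _ x => ?_
    obtain ⟨y, rfl⟩ := Submodule.mkQ_surjective _ x
    change PowerSeries.constantCoeff (PowerSeries.C r * y) = r * PowerSeries.constantCoeff y
    simp
  · have hX : (PowerSeries.X : PowerSeries S) ∈ maximalIdeal (PowerSeries S) := by
      rw [mem_maximalIdeal, mem_nonunits_iff, PowerSeries.isUnit_iff_constantCoeff]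
      simp
    have h1 : (maximalIdeal S).comap (PowerSeries.constantCoeff (R := S)) =
        maximalIdeal (PowerSeries S) :=
      IsLocalRing.eq_maximalIdeal
        (Ideal.comap_isMaximal_of_surjective _ PowerSeries.constantCoeff_surj)
    have h2 : (maximalIdeal (PowerSeries S)).map (PowerSeries.constantCoeff (R := S)) =
        maximalIdeal S := by
      rw [← h1]
      exact Ideal.map_comap_of_surjective _ PowerSeries.constantCoeff_surj _
    have h3 := PowerSeries.eq_span_insert_X_of_X_mem_of_span_eq (S := { r | r ∈ rs }) hX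
      (by rw [h2]; exact hmax)
    rw [h3, Ideal.ofList]
    congr 1
    ext y
    simp [eq_comm]

/-- `𝒪⟦X₁, …, X_r⟧` has its maximal ideal generated by a regular sequence of length `r + 1`
if `𝒪` is a discrete valuation ring. -/
theorem exists_regular_generators (𝒪 : Type) [CommRing 𝒪] [IsDomain 𝒪] [IsDiscreteValuationRing 𝒪]
    (ϖ : 𝒪) (hϖ : Irreducible ϖ) (r : ℕ) :
    ∃ rs : List (MvPowerSeries (Fin r) 𝒪), rs.length = r + 1 ∧
      IsWeaklyRegular (MvPowerSeries (Fin r) 𝒪) rs ∧
      Ideal.ofList rs = maximalIdeal (MvPowerSeries (Fin r) 𝒪) ∧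
      ∀ x ∈ rs, x = MvPowerSeries.C ϖ ∨ ∃ i, x = MvPowerSeries.X i := by
  induction r with
  | zero =>
    have h0 : IsWeaklyRegular 𝒪 [ϖ] := by
      rw [isWeaklyRegular_cons_iff]
      exact ⟨IsSMulRegular.of_ne_zero hϖ.ne_zero, IsWeaklyRegular.nil _ _⟩
    have h1 : Ideal.ofList [ϖ] = maximalIdeal 𝒪 := by
      rw [Ideal.ofList_singleton]
      exact hϖ.maximalIdeal_eq.symm
    obtain ⟨h2, h3⟩ := transport_regular_generators
      (MvPowerSeries.isEmptyEquiv (Fin 0) 𝒪).toRingEquiv.symm [ϖ] h0 h1
    refine ⟨_, ?_, h2, h3, ?_⟩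
    · simp
    · intro x hx
      left
      rw [List.map_singleton, List.mem_singleton] at hx
      rw [hx]
      change (MvPowerSeries.isEmptyEquiv (Fin 0) 𝒪).symm ϖ = MvPowerSeries.C ϖ
      have := (MvPowerSeries.isEmptyEquiv (Fin 0) 𝒪).symm.commutes ϖ
      simpa [MvPowerSeries.algebraMap_apply] using this
  | succ r ih =>
    obtain ⟨rs, hlen, hreg, hmax, hX⟩ := ih
    obtain ⟨h0, h1⟩ := powerSeries_regular_generators rs hreg hmax
    obtain ⟨h2, h3⟩ := transport_regular_generators
      (MvPowerSeries.finSuccEquiv 𝒪 r).toRingEquiv.symm _ h0 h1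
    refine ⟨_, ?_, h2, h3, ?_⟩
    · simp [hlen]
    · intro x hx
      rw [List.map_cons, List.mem_cons, List.map_map, List.mem_map] at hx
      rcases hx with hx | ⟨y, hy, hx⟩
      · right
        refine ⟨0, ?_⟩
        rw [hx]
        change (MvPowerSeries.finSuccEquiv 𝒪 r).symm PowerSeries.X = _
        rw [AlgEquiv.symm_apply_eq, MvPowerSeries.finSuccEquiv_X_zero]
      · rcases hX y hy with rfl | ⟨i, rfl⟩
        · left
          rw [← hx]
          change (MvPowerSeries.finSuccEquiv 𝒪 r).symm (PowerSeries.C (MvPowerSeries.C ϖ)) = _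
          rw [AlgEquiv.symm_apply_eq, MvPowerSeries.finSuccEquiv_C]
        · right
          refine ⟨i.succ, ?_⟩
          rw [← hx]
          change (MvPowerSeries.finSuccEquiv 𝒪 r).symm (PowerSeries.C (MvPowerSeries.X i)) = _
          rw [AlgEquiv.symm_apply_eq, MvPowerSeries.finSuccEquiv_X_succ]

end Fermat.Agent.CommAlg
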